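import Fermat.Agent.AVb.Fd

/-!
# Evaluation at generic points and transport of generic points (S26, block B0)
-/

set_option autoImplicit false
set_option maxHeartbeats 400000

universe u

open IntermediateField TensorProduct

noncomputable section

namespace Fermat.Agent.AVn0

/-! ### Pure field theory: lifting to composita of linearly disjoint fields -/

section Field

universe v w x w'

variable {K : Type u} [Field K]

/-- two embeddings have linearly disjoint images iff the product map is injective -/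
theorem linearDisjoint_iff_productMap {E : Type v} {F : Type w} {Ω : Type x} [Field E] [Field F]
    [Field Ω] [Algebra K E] [Algebra K F] [Algebra K Ω] (α : E →ₐ[K] Ω) (β : F →ₐ[K] Ω) :
    α.fieldRange.LinearDisjoint β.fieldRange ↔
      Function.Injective (Algebra.TensorProduct.productMap α β) := by
  rw [linearDisjoint_iff', AlgHom.fieldRange_toSubalgebra, AlgHom.fieldRange_toSubalgebra,
    Subalgebra.linearDisjoint_iff_injective]
  let e : E ⊗[K] F ≃ₐ[K] α.range ⊗[K] β.range :=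
    Algebra.TensorProduct.congr (AlgEquiv.ofInjective α α.injective)
      (AlgEquiv.ofInjective β β.injective)
  have hi : Algebra.TensorProduct.productMap α β = (α.range.mulMap β.range).comp e.toAlgHom := by
    ext <;> simp [e]
  have hi' : ⇑(Algebra.TensorProduct.productMap α β) = ⇑(α.range.mulMap β.range) ∘ ⇑e := by
    rw [hi]; rfl
  rw [hi']
  exact (EquivLike.injective_comp e _).symm

theorem linearDisjoint_iff_productMap_val {F : Type w} {Ω : Type x} [Field F]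
    [Field Ω] [Algebra K F] [Algebra K Ω] (E : IntermediateField K Ω) (β : F →ₐ[K] Ω) :
    E.LinearDisjoint β.fieldRange ↔
      Function.Injective (Algebra.TensorProduct.productMap E.val β) := by
  have h := linearDisjoint_iff_productMap E.val β
  rwa [IntermediateField.fieldRange_val] at h

/-- extension to fraction fields, unbundled -/
theorem exists_lift_aux {T : Type v} {N : Type w} {Ω' : Type x} [CommRing T] [Field N]
    [Field Ω'] [Algebra K T] [Algebra K N] [Algebra K Ω'] (m : T →ₐ[K] N)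
    (hm : Function.Injective m) (hs : ∀ z : N, ∃ x y : T, z = m x / m y) (n : T →ₐ[K] Ω')
    (hn : Function.Injective n) : ∃ τ : N →ₐ[K] Ω', ∀ t, τ (m t) = n t := by
  let : Algebra T N := m.toRingHom.toAlgebra
  have : IsScalarTower K T N := IsScalarTower.of_algebraMap_eq fun c => (m.commutes c).symm
  have : FaithfulSMul T N := (faithfulSMul_iff_algebraMap_injective _ _).mpr hm
  have : IsFractionRing T N := IsFractionRing.of_field _ _ hs
  exact ⟨IsFractionRing.liftAlgHom (g := n) hn, fun t => IsFractionRing.lift_algebraMap hn t⟩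

theorem exists_prodMap {F : Type w} {Ω : Type v} [Field F] [Field Ω]
    [Algebra K F] [Algebra K Ω] (E : IntermediateField K Ω) (φ : F →ₐ[K] Ω)
    (N : IntermediateField K Ω) (hEN : E ≤ N) (hFN : φ.fieldRange ≤ N) :
    ∃ m : E ⊗[K] F →ₐ[K] N, (∀ (x : Ω) (hx : x ∈ E), m ((⟨x, hx⟩ : E) ⊗ₜ 1) = ⟨x, hEN hx⟩) ∧
      ∀ y : F, m (1 ⊗ₜ y) = ⟨φ y, hFN ⟨y, rfl⟩⟩ := by
  refine ⟨Algebra.TensorProduct.productMap (IntermediateField.inclusion hEN)
    (φ.codRestrict N.toSubalgebra fun y => hFN ⟨y, rfl⟩), ?_, ?_⟩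
  · intro x hx
    rw [Algebra.TensorProduct.productMap_apply_tmul, _root_.map_one, mul_one]
    rfl
  · intro x
    rw [Algebra.TensorProduct.productMap_apply_tmul, _root_.map_one, one_mul]
    rfl

theorem prodMap_val {F : Type w} {Ω : Type v} [Field F] [Field Ω]
    [Algebra K F] [Algebra K Ω] {E : IntermediateField K Ω} {φ : F →ₐ[K] Ω}
    {N : IntermediateField K Ω} {hEN : E ≤ N} {hFN : φ.fieldRange ≤ N}
    {m : E ⊗[K] F →ₐ[K] N} (hmE : ∀ (x : Ω) (hx : x ∈ E), m ((⟨x, hx⟩ : E) ⊗ₜ 1) = ⟨x, hEN hx⟩)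
    (hmF : ∀ y : F, m (1 ⊗ₜ y) = ⟨φ y, hFN ⟨y, rfl⟩⟩) (t : E ⊗[K] F) :
    ((m t : N) : Ω) = Algebra.TensorProduct.productMap E.val φ t := by
  induction t using TensorProduct.induction_on with
  | zero => rw [_root_.map_zero, _root_.map_zero]; rfl
  | tmul a b =>
    have h1 : a ⊗ₜ[K] b = (a ⊗ₜ[K] (1 : F)) * ((1 : E) ⊗ₜ[K] b) := by
      rw [Algebra.TensorProduct.tmul_mul_tmul, one_mul, mul_one]
    rw [Algebra.TensorProduct.productMap_apply_tmul, h1, _root_.map_mul, hmF]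
    have h2 := hmE a a.2
    have h3 : (⟨(a : Ω), a.2⟩ : E) = a := rfl
    rw [h3] at h2
    rw [h2]
    rfl
  | add a b ha hb =>
    rw [_root_.map_add, _root_.map_add, ← ha, ← hb]
    rfl

theorem exists_div_prodMap {F : Type w} {Ω : Type v} [Field F] [Field Ω]
    [Algebra K F] [Algebra K Ω] {E : IntermediateField K Ω} {φ : F →ₐ[K] Ω}
    {N : IntermediateField K Ω} (hN : E ⊔ φ.fieldRange = N) {hEN : E ≤ N}
    {hFN : φ.fieldRange ≤ N}
    {m : E ⊗[K] F →ₐ[K] N} (hmE : ∀ (x : Ω) (hx : x ∈ E), m ((⟨x, hx⟩ : E) ⊗ₜ 1) = ⟨x, hEN hx⟩)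
    (hmF : ∀ y : F, m (1 ⊗ₜ y) = ⟨φ y, hFN ⟨y, rfl⟩⟩) (z : N) :
    ∃ x y : E ⊗[K] F, z = m x / m y := by
  have hrange : ∀ z ∈ Algebra.adjoin K ((E : Set Ω) ∪ φ.fieldRange), ∃ t : E ⊗[K] F,
      ((m t : N) : Ω) = z := by
    intro z hz
    have h1 : Algebra.adjoin K ((E : Set Ω) ∪ φ.fieldRange) ≤ (N.val.comp m).range := by
      apply Algebra.adjoin_le
      rintro y (hy | ⟨y, rfl⟩)
      · exact ⟨(⟨y, hy⟩ : E) ⊗ₜ 1, congrArg N.val (hmE y hy)⟩
      · exact ⟨1 ⊗ₜ y, congrArg N.val (hmF y)⟩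
    obtain ⟨t, ht⟩ := h1 hz
    exact ⟨t, ht⟩
  have hz : (z : Ω) ∈ adjoin K ((E : Set Ω) ∪ φ.fieldRange) := by
    have h2 : (z : Ω) ∈ E ⊔ φ.fieldRange := by rw [hN]; exact z.2
    exact h2
  obtain ⟨r, hr, s, hs, hrs⟩ := mem_adjoin_iff_div.mp hz
  obtain ⟨r', hr'⟩ := hrange r hr
  obtain ⟨s', hs'⟩ := hrange s hs
  refine ⟨r', s', Subtype.ext ?_⟩
  rw [hrs, ← hr', ← hs']
  rfl

theorem productMap_mem_sup {E : Type w} {F : Type w'} {Ω : Type v} [Field E] [Field F] [Field Ω]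
    [Algebra K F] [Algebra K Ω] [Algebra K E] (σ : E →ₐ[K] Ω) (φ : F →ₐ[K] Ω) (t : E ⊗[K] F) :
    Algebra.TensorProduct.productMap σ φ t ∈ σ.fieldRange ⊔ φ.fieldRange := by
  induction t using TensorProduct.induction_on with
  | zero => rw [_root_.map_zero]; exact zero_mem _
  | tmul a b =>
    rw [Algebra.TensorProduct.productMap_apply_tmul]
    exact mul_mem ((le_sup_left : σ.fieldRange ≤ _) ⟨a, rfl⟩)
      ((le_sup_right : φ.fieldRange ≤ _) ⟨b, rfl⟩)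
  | add a b ha hb => rw [_root_.map_add]; exact add_mem ha hb

theorem exists_lift_N {F : Type w} {Ω : Type v} {Ω' : Type x} [Field F] [Field Ω] [Field Ω']
    [Algebra K F] [Algebra K Ω] [Algebra K Ω'] (E : IntermediateField K Ω) (φ : F →ₐ[K] Ω)
    (h : E.LinearDisjoint φ.fieldRange) (σ : E →ₐ[K] Ω') (φ' : F →ₐ[K] Ω')
    (h' : σ.fieldRange.LinearDisjoint φ'.fieldRange) (N : IntermediateField K Ω)
    (hN : E ⊔ φ.fieldRange = N) (hEN : E ≤ N) (hFN : φ.fieldRange ≤ N) :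
    ∃ τ : N →ₐ[K] Ω',
      (∀ (x : Ω) (hx : x ∈ E), τ ⟨x, hEN hx⟩ = σ ⟨x, hx⟩) ∧
      (∀ y : F, τ ⟨φ y, hFN ⟨y, rfl⟩⟩ = φ' y) ∧
      τ.fieldRange = σ.fieldRange ⊔ φ'.fieldRange := by
  rw [linearDisjoint_iff_productMap_val] at h
  rw [linearDisjoint_iff_productMap] at h'
  obtain ⟨m, hmE, hmF⟩ := exists_prodMap E φ N hEN hFN
  have hmv := prodMap_val hmE hmF
  have hs := exists_div_prodMap hN hmE hmF
  have hm : Function.Injective m := by
    intro a b hab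
    apply h
    rw [← hmv, ← hmv, hab]
  obtain ⟨τ, hτ⟩ := exists_lift_aux m hm hs (Algebra.TensorProduct.productMap σ φ') h'
  have h1 : ∀ (x : Ω) (hx : x ∈ E), τ ⟨x, hEN hx⟩ = σ ⟨x, hx⟩ := by
    intro x hx
    rw [← hmE x hx, hτ, Algebra.TensorProduct.productMap_apply_tmul, _root_.map_one, mul_one]
  have h2 : ∀ y : F, τ ⟨φ y, hFN ⟨y, rfl⟩⟩ = φ' y := by
    intro y
    rw [← hmF y, hτ, Algebra.TensorProduct.productMap_apply_tmul, _root_.map_one, one_mul]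
  refine ⟨τ, h1, h2, le_antisymm ?_ (sup_le ?_ ?_)⟩
  · rintro _ ⟨z, rfl⟩
    obtain ⟨r', s', hz'⟩ := hs z
    have h3 : τ z = Algebra.TensorProduct.productMap σ φ' r' /
        Algebra.TensorProduct.productMap σ φ' s' := by
      rw [hz', map_div₀, hτ, hτ]
    have h4 : τ z ∈ σ.fieldRange ⊔ φ'.fieldRange := by
      rw [h3]
      exact div_mem (productMap_mem_sup σ φ' r') (productMap_mem_sup σ φ' s')
    exact h4
  · rintro _ ⟨x, rfl⟩
    exact ⟨⟨x, hEN x.2⟩, h1 x x.2⟩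
  · rintro _ ⟨y, rfl⟩
    exact ⟨_, h2 y⟩

/-- Extension of homomorphisms to the compositum of linearly disjoint fields. -/
theorem exists_lift {F : Type w} {Ω : Type v} {Ω' : Type x} [Field F] [Field Ω] [Field Ω']
    [Algebra K F] [Algebra K Ω] [Algebra K Ω'] (E : IntermediateField K Ω) (φ : F →ₐ[K] Ω)
    (h : E.LinearDisjoint φ.fieldRange) (σ : E →ₐ[K] Ω') (φ' : F →ₐ[K] Ω')
    (h' : σ.fieldRange.LinearDisjoint φ'.fieldRange) :
    ∃ τ : ↥(E ⊔ φ.fieldRange) →ₐ[K] Ω',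
      (∀ (x : Ω) (hx : x ∈ E), τ ⟨x, (le_sup_left : E ≤ _) hx⟩ = σ ⟨x, hx⟩) ∧
      (∀ y : F, τ ⟨φ y, (le_sup_right : φ.fieldRange ≤ E ⊔ φ.fieldRange) ⟨y, rfl⟩⟩ = φ' y) ∧
      τ.fieldRange = σ.fieldRange ⊔ φ'.fieldRange :=
  exists_lift_N E φ h σ φ' h' _ rfl le_sup_left le_sup_right

end Field

end Fermat.Agent.AVn0

namespace Fermat.Agent.AVn.AVar

variable {K : Type u} [Field K] {g : ℕ} (A : AVar K g)
variable {Ω Ω' : Type u} [Field Ω] [Algebra K Ω] [Field Ω'] [Algebra K Ω']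

theorem ev_of_not {z : A.Pt Ω} (h : ¬ ∃ φ : A.F →ₐ[K] Ω, A.map φ A.gen = z) (f : A.F) :
    A.ev z f = 0 := by rw [ev, dif_neg h]

theorem trdeg_fd_map (θ : Ω →ₐ[K] Ω') (z : A.Pt Ω) :
    Algebra.trdeg K (A.fd (A.map θ z)) = Algebra.trdeg K (A.fd z) := by
  rw [fd_map]
  exact ((A.fd z).equivMap θ).symm.trdeg_eq

theorem exists_map_gen_iff (θ : Ω →ₐ[K] Ω') (z : A.Pt Ω) :
    (∃ φ : A.F →ₐ[K] Ω', A.map φ A.gen = A.map θ z) ↔
      ∃ φ : A.F →ₐ[K] Ω, A.map φ A.gen = z := by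
  constructor
  · rintro ⟨φ, hφ⟩
    apply A.exists_ev
    rw [← A.trdeg_fd_map θ, ← hφ, A.trdeg_fd_map φ, A.fd_gen, ← A.trdeg_F]
    exact IntermediateField.topEquiv.trdeg_eq
  · rintro ⟨φ, hφ⟩
    exact ⟨θ.comp φ, by rw [A.map_comp, hφ]⟩

/-- naturality of evaluation -/
theorem ev_map (θ : Ω →ₐ[K] Ω') (z : A.Pt Ω) (f : A.F) :
    A.ev (A.map θ z) f = θ (A.ev z f) := by
  by_cases h : ∃ φ : A.F →ₐ[K] Ω, A.map φ A.gen = z
  · obtain ⟨φ, hφ⟩ := h
    rw [← hφ, ← A.map_comp, A.ev_eq, A.ev_eq]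
    rfl
  · rw [A.ev_of_not h, _root_.map_zero, A.ev_of_not]
    rwa [A.exists_map_gen_iff]

theorem fd_eq_fieldRange {z : A.Pt Ω} {φ : A.F →ₐ[K] Ω} (h : A.map φ A.gen = z) :
    A.fd z = φ.fieldRange := by rw [← h, A.fd_map_gen]

theorem ev_mem_fd (z : A.Pt Ω) (f : A.F) : A.ev z f ∈ A.fd z := by
  by_cases h : ∃ φ : A.F →ₐ[K] Ω, A.map φ A.gen = z
  · obtain ⟨φ, hφ⟩ := h
    rw [A.fd_eq_fieldRange hφ, ← hφ, A.ev_eq]
    exact ⟨f, rfl⟩
  · rw [A.ev_of_not h]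
    exact zero_mem _

/-- evaluation of an even function -/
theorem ev_neg {f : A.F} (hf : A.ev (-A.gen) f = f) (z : A.Pt Ω) : A.ev (-z) f = A.ev z f := by
  by_cases h : ∃ φ : A.F →ₐ[K] Ω, A.map φ A.gen = z
  · obtain ⟨φ, hφ⟩ := h
    rw [← hφ, ← A.map_neg, A.ev_map, hf, A.ev_eq]
  · have h' : ¬ ∃ φ : A.F →ₐ[K] Ω, A.map φ A.gen = -z := by
      rintro ⟨φ, hφ⟩
      apply h
      apply A.exists_ev
      rw [← neg_neg z, ← hφ, ← A.map_neg, A.trdeg_fd_map, A.fd_neg, A.fd_gen, ← A.trdeg_F]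
      exact IntermediateField.topEquiv.trdeg_eq
    rw [A.ev_of_not h, A.ev_of_not h']

namespace Gen

variable {A}

theorem linearDisjoint_fd {k : IntermediateField K Ω} {z : A.Pt Ω} (h : A.Gen k z) :
    k.LinearDisjoint (A.fd z) := by
  obtain ⟨φ, hφ, hd⟩ := h
  rwa [A.fd_eq_fieldRange hφ]

theorem anti_ev {k k' : IntermediateField K Ω} (hk : k' ≤ k) {z : A.Pt Ω} (h : A.Gen k z) :
    A.Gen k' z := by
  obtain ⟨φ, hφ, hd⟩ := h
  exact ⟨φ, hφ, hd.of_le_left hk⟩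

/-- transport of generic points -/
theorem map_ev {k : IntermediateField K Ω} {z : A.Pt Ω} (h : A.Gen k z) (θ : Ω →ₐ[K] Ω') :
    A.Gen (k.map θ) (A.map θ z) := by
  obtain ⟨φ, hφ, hd⟩ := h
  refine ⟨θ.comp φ, by rw [A.map_comp, hφ], ?_⟩
  have h1 : k.map θ = (θ.comp k.val).fieldRange := by
    rw [AlgHom.fieldRange_eq_map, ← IntermediateField.map_map, ← AlgHom.fieldRange_eq_map,
      IntermediateField.fieldRange_val]
  rw [h1, Fermat.Agent.AVn0.linearDisjoint_iff_productMap]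
  rw [Fermat.Agent.AVn0.linearDisjoint_iff_productMap_val] at hd
  have h2 : Algebra.TensorProduct.productMap (θ.comp k.val) (θ.comp φ) =
      θ.comp (Algebra.TensorProduct.productMap k.val φ) := by
    ext <;> simp
  rw [h2]
  exact θ.injective.comp hd

/-- **Transport**: an embedding of `k` extends to `k(z)`, `z` generic over `k`, with arbitrary
generic image of `z`. -/
theorem exists_transport {k : IntermediateField K Ω} {z : A.Pt Ω} (h : A.Gen k z)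
    (σ : k →ₐ[K] Ω') {z' : A.Pt Ω'} (h' : A.Gen σ.fieldRange z') :
    ∃ τ : ↥(k ⊔ A.fd z) →ₐ[K] Ω',
      (∀ (x : Ω) (hx : x ∈ k), τ ⟨x, (le_sup_left : k ≤ _) hx⟩ = σ ⟨x, hx⟩) ∧
      (∀ w : A.Pt ↥(k ⊔ A.fd z), A.map (k ⊔ A.fd z).val w = z → A.map τ w = z') ∧
      τ.fieldRange = σ.fieldRange ⊔ A.fd z' := by
  obtain ⟨φ, hφ, hd⟩ := h
  obtain ⟨φ', hφ', hd'⟩ := h'
  have hfd : A.fd z = φ.fieldRange := A.fd_eq_fieldRange hφ
  have hfd' : A.fd z' = φ'.fieldRange := A.fd_eq_fieldRange hφ'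
  rw [hfd, hfd']
  obtain ⟨τ, h1, h2, h3⟩ := Fermat.Agent.AVn0.exists_lift k φ hd σ φ' hd'
  refine ⟨τ, h1, ?_, h3⟩
  intro w hw
  let iF : A.F →ₐ[K] ↥(k ⊔ φ.fieldRange) :=
    φ.codRestrict (k ⊔ φ.fieldRange).toSubalgebra
      fun y => (le_sup_right : φ.fieldRange ≤ k ⊔ φ.fieldRange) ⟨y, rfl⟩
  have h4 : w = A.map iF A.gen := by
    apply A.map_injective (k ⊔ φ.fieldRange).val
    rw [hw, ← A.map_comp, ← hφ]
    congr 1
  have h5 : τ.comp iF = φ' := by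
    ext y
    exact h2 y
  rw [h4, ← A.map_comp, h5, hφ']

end Gen

end Fermat.Agent.AVn.AVar

end
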